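import Mathlib
import Fermat.Agent.MUL.E.Desc.Kp.ModDefs
import Fermat.Agent.MUL.Lib.BadRed.PNew.SpDef
import Fermat.Agent.MUL.S33.PNew
import Fermat.Agent.MUL.R38.Ret.Defs

section MergeWrap_R38_SpineDefs -- from R38/SpineDefs.lean

set_option autoImplicit false
set_option linter.style.haveILetI false
set_option linter.unusedSectionVars false
set_option synthInstance.maxHeartbeats 400000

noncomputable section

namespace Fermat.Agent.R38

open ModularCurve AlgebraicCurve Fermat.Agent.F3 Fermat.Agent.F3G Fermat.Agent.F3I2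
  Fermat.Agent.GaussInt Fermat.Agent.AtkinLehner Fermat.Agent.Deuring Fermat.Agent.RR
  Fermat.Agent.BadRed Fermat.Agent.EKp

local notation "Qb" => AlgebraicClosure ℚ
local notation "GQ" => (AlgebraicClosure ℚ ≃ₐ[ℚ] AlgebraicClosure ℚ)

/-! ### Kummer generators -/

/-- `(E, g)` is a Kummer generator of exponent `p` of the class `y`: `div g = p E`, `[E] = y`. -/
def spIsKumGen {M : ℕ} (p : ℕ) (y : JZero M) (E : Divisor.degZero (K := Qb) (F := FBar M))
    (g : FBar M) : Prop :=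
  IsRootDiv p g E ∧ Pic0.mk E = y

section Mid

variable (D : ALData) [NeZero D.Q] [NeZero D.R] [NeZero (D.Q * D.R)]
  (A : ValuationSubring Qb) (hq : D.Q.Prime) (hA : A.LiesOverPrime D.Q) (hqR : ¬ D.Q ∣ D.R)
  [Fact D.Q.Prime] [CharP (IsLocalRing.ResidueField A) D.Q]
  [PerfectRing (IsLocalRing.ResidueField A) D.Q]

/-- `r` is a normalised reduction of `g` for the Gauss valuation `v_∞`: `r = red (g / c) ≠ 0`. -/
def spIsRedInf (g : FBar (D.Q * D.R))
    (r : modularFunctionFieldFullC (IsLocalRing.ResidueField A) D.R) : Prop :=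
  ∃ c : Qb, c ≠ 0 ∧ g / algebraMap Qb (FBar (D.Q * D.R)) c ∈ (kpS D A hq hA hqR).Ov ∧
    (kpS D A hq hA hqR).red (g / algebraMap Qb (FBar (D.Q * D.R)) c) = r ∧ r ≠ 0

/-- `r` is a normalised reduction of `g` for `v_0 = v_∞ ∘ w_p`. -/
def spIsRedZero (g : FBar (D.Q * D.R))
    (r : modularFunctionFieldFullC (IsLocalRing.ResidueField A) D.R) : Prop :=
  spIsRedInf D A hq hA hqR (atkinLehner D g) r

/-- **(INT)** for `g`: the slopes at the nodes are proportional to the multiplicities modulo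
`p`. -/
def spSlopeInt (g : FBar (D.Q * D.R)) : Prop :=
  ∀ r, spIsRedInf D A hq hA hqR g r → ∀ i j : kpIota D A hq hA hqR,
    (D.Q : ℤ) ∣ (kpEps D A hq hA hqR j : ℤ) * i.1.ord r - (kpEps D A hq hA hqR i : ℤ) * j.1.ord r

/-- the divisors of the reductions of `g` (both sides) are divisible by `p` at ALL places. -/
def spDivZero (g : FBar (D.Q * D.R)) : Prop :=
  ∀ r, (spIsRedInf D A hq hA hqR g r ∨ spIsRedZero D A hq hA hqR g r) →
    ∀ Q : Place (IsLocalRing.ResidueField A)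
      (modularFunctionFieldFullC (IsLocalRing.ResidueField A) D.R), (D.Q : ℤ) ∣ Q.ord r

/-- `Ψ ≠ 0`: one of the two reductions of `g` is not a `p`-th power. -/
def spPsiNe (g : FBar (D.Q * D.R)) : Prop :=
  (∃ r, spIsRedInf D A hq hA hqR g r ∧ ∀ h, r ≠ h ^ D.Q) ∨
    (∃ r, spIsRedZero D A hq hA hqR g r ∧ ∀ h, r ≠ h ^ D.Q)

end Mid

/-! ### Galois conditions on a class -/

section Gal

variable {M : ℕ}

/-- **Kummer stabiliser** (the image of `R38T.PeuKummer` under a Galois embedding): there is a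
unit `a ≡ 1`, fixed by the inertia group of `A`, such that every element of the inertia group which
fixes a primitive `p`-th root of unity and a `p`-th root of `a` fixes `y`. -/
def spKumStab (p : ℕ) (A : ValuationSubring Qb) (y : JZero M) : Prop :=
  ∃ a : Qb, A.valuation a = 1 ∧ A.valuation (a - 1) < 1 ∧
    (∀ σ ∈ A.inertiaSubgroupIn ℚ, σ a = a) ∧
    ∀ α ζ : Qb, α ^ p = a → IsPrimitiveRoot ζ p →
      ∀ σ ∈ A.inertiaSubgroupIn ℚ, σ ζ = ζ → σ α = α → σ • y = y

/-- **unipotence**: the inertia elements which fix `ζ_p` fix the differences `σ y - y`,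
`σ` inertial. -/
def spUnip (p : ℕ) (A : ValuationSubring Qb) (y : JZero M) : Prop :=
  ∀ ζ : Qb, IsPrimitiveRoot ζ p → ∀ σ ∈ A.inertiaSubgroupIn ℚ, ∀ τ ∈ A.inertiaSubgroupIn ℚ,
    τ ζ = ζ → τ • (σ • y - y) = σ • y - y

end Gal

/-! ### the `p`-new eigenspace -/

/-- the `p`-new eigen-classes of level `D.Q * D.R` with eigenvalues `a ℓ` (`ℓ ∉ S`, `ℓ ∤ N`). -/
def spIsNewEigen (D : ALData) [NeZero D.Q] [NeZero D.R] [NeZero (D.Q * D.R)] (S : Finset ℕ)
    (a : ℕ → ℤ) (y : JZero (D.Q * D.R)) : Prop :=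
  D.Q • y = 0 ∧
    Fermat.Agent.S33.pnewAlpha (mul_comm D.Q D.R) y = 0 ∧
    Fermat.Agent.S33.pnewBeta (mul_comm D.Q D.R) D rfl y = 0 ∧
    ∀ ℓ : Nat.Primes, (ℓ : ℕ) ∉ S → ¬ (ℓ : ℕ) ∣ D.Q * D.R →
      heckeOperatorBar (D.Q * D.R) ℓ y = a ℓ • y

end Fermat.Agent.R38
end
end MergeWrap_R38_SpineDefs
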